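import Fermat.Agent.S13.Defs2
import Fermat.Agent.S13.R1
import Fermat.Agent.S13.R4

/-!
# S58 / Node / Good : good reduction: every integral point has nonsingular reduction
-/

set_option autoImplicit false

namespace Fermat.Agent.S58.Node

open WeierstrassCurve WeierstrassCurve.Affine Fermat.Agent.S13 Fermat.Agent.S13.R4

variable {K : Type*} [Field K] {Γ₀ : Type*} [LinearOrderedCommGroupWithZero Γ₀] (v : Valuation K Γ₀)

/-- PROOF.  `A₃ := 2y + a₁x + a₃`, `A₄ := 3x² + 2a₂x + a₄ - a₁y`, `A₂ := a₂ + 3x` are the coefficients of the curve translated to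
`(x,y)` (`A₆ = 0` by the equation) and `Δ` is translation invariant: with `B₂ = a₁² + 4A₂`, `B₄ = 2A₄ + a₁A₃`, `B₆ = A₃²`,
`B₈ = -a₁A₃A₄ + A₂A₃² - A₄²`:  `Δ = -B₂²B₈ - 8B₄³ - 27B₆² + 9B₂B₄B₆` modulo the equation (find the cofactor `c` with
`linear_combination c * h`; or use Mathlib: `WeierstrassCurve.variableChange_Δ` for `⟨1, x, 0, y⟩`).  Every monomial contains `A₃` or `A₄`:
if both are in `𝔪` then `v Δ < 1`. -/
theorem goodRed_of_Δ {W : WeierstrassCurve.Affine K} (hW : IntegralCoeffs v W) (hΔ : v W.Δ = 1)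
    {x y : K} (h : W.Equation x y) (hx : v x ≤ 1) : GoodRed v W x y := by
  obtain ⟨h1, h2, h3, h4, h6⟩ := hW
  rw [WeierstrassCurve.Affine.equation_iff] at h
  have hn : ∀ n : ℕ, v (n : K) ≤ 1 := fun n => by
    induction n with
    | zero => simp
    | succ n ih => rw [Nat.cast_succ]; exact add_le ih (by simp)
  have hy : v y ≤ 1 := by
    refine integral_of_quadratic (v := v) (b := W.a₁ * x + W.a₃)
      (c := x ^ 3 + W.a₂ * x ^ 2 + W.a₄ * x + W.a₆) (add_le (mul_le h1 hx) h3)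
      (add_le (add_le (add_le (pow_le hx 3) (mul_le h2 (pow_le hx 2))) (mul_le h4 hx)) h6) ?_
    linear_combination h
  set A₃ : K := 2 * y + W.a₁ * x + W.a₃ with hA₃
  set A₄ : K := W.a₁ * y - (3 * x ^ 2 + 2 * W.a₂ * x + W.a₄) with hA₄
  set A₂ : K := W.a₂ + 3 * x with hA₂
  have e2 : v (2 : K) ≤ 1 := by exact_mod_cast hn 2
  have e3 : v (3 : K) ≤ 1 := by exact_mod_cast hn 3
  have e4 : v (4 : K) ≤ 1 := by exact_mod_cast hn 4
  have e8 : v (8 : K) ≤ 1 := by exact_mod_cast hn 8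
  have e9 : v (9 : K) ≤ 1 := by exact_mod_cast hn 9
  have e27 : v (27 : K) ≤ 1 := by exact_mod_cast hn 27
  have hA₃le : v A₃ ≤ 1 := add_le (add_le (mul_le e2 hy) (mul_le h1 hx)) h3
  have hA₄le : v A₄ ≤ 1 :=
    sub_le (mul_le h1 hy) (add_le (add_le (mul_le e3 (pow_le hx 2)) (mul_le (mul_le e2 h2) hx)) h4)
  have hA₂le : v A₂ ≤ 1 := add_le h2 (mul_le e3 hx)
  by_contra hbad
  unfold GoodRed at hbad
  rw [← hA₃, ← hA₄] at hbad
  push Not at hbad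
  have hA₄lt : v A₄ < 1 := lt_of_le_of_ne hA₄le hbad.1
  have hA₃lt : v A₃ < 1 := lt_of_le_of_ne hA₃le hbad.2
  set B₂ : K := W.a₁ ^ 2 + 4 * A₂ with hB₂
  set B₄ : K := -2 * A₄ + W.a₁ * A₃ with hB₄
  set B₆ : K := A₃ ^ 2 with hB₆
  set B₈ : K := W.a₁ * A₃ * A₄ + A₂ * A₃ ^ 2 - A₄ ^ 2 with hB₈
  have hB₂le : v B₂ ≤ 1 := add_le (pow_le h1 2) (mul_le e4 hA₂le)
  have hB₄lt : v B₄ < 1 := by
    refine add_lt (mul_lt ?_ hA₄lt) (mul_lt h1 hA₃lt)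
    rw [Valuation.map_neg]; exact e2
  have hB₆lt : v B₆ < 1 := by rw [hB₆, sq]; exact mul_lt hA₃le hA₃lt
  have hB₈lt : v B₈ < 1 := by
    refine sub_lt (add_lt (mul_lt (mul_le h1 hA₃le) hA₄lt) (mul_lt hA₂le hB₆lt)) ?_
    rw [sq]; exact mul_lt hA₄le hA₄lt
  have key : W.Δ = -B₂ ^ 2 * B₈ - 8 * B₄ ^ 3 - 27 * B₆ ^ 2 + 9 * B₂ * B₄ * B₆ := by
    simp only [WeierstrassCurve.Δ, WeierstrassCurve.b₂, WeierstrassCurve.b₄, WeierstrassCurve.b₆,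
      WeierstrassCurve.b₈, hB₂, hB₄, hB₆, hB₈, hA₂, hA₃, hA₄]
    linear_combination (-(-(W.a₁ ^ 2 + 4 * (W.a₂ + 3 * x)) ^ 3
      - 216 * (2 * y + W.a₁ * x + W.a₃) ^ 2
      - 432 * (W.a₆ + x * W.a₄ + x ^ 2 * W.a₂ + x ^ 3 - y * W.a₃ - y ^ 2 - x * y * W.a₁)
      + 36 * (W.a₁ ^ 2 + 4 * (W.a₂ + 3 * x)) *
        (-2 * (W.a₁ * y - (3 * x ^ 2 + 2 * W.a₂ * x + W.a₄))
          + W.a₁ * (2 * y + W.a₁ * x + W.a₃)))) * h
  have hlt : v W.Δ < 1 := by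
    rw [key]
    refine add_lt (sub_lt (sub_lt ?_ ?_) ?_) ?_
    · refine mul_lt ?_ hB₈lt
      rw [Valuation.map_neg]; exact pow_le hB₂le 2
    · refine mul_lt e8 ?_
      rw [pow_succ]; exact mul_lt (pow_le hB₄lt.le 2) hB₄lt
    · refine mul_lt e27 ?_
      rw [sq]; exact mul_lt hB₆lt.le hB₆lt
    · exact mul_lt (mul_le (mul_le e9 hB₂le) hB₄lt.le) hB₆lt
  rw [hΔ] at hlt
  exact lt_irrefl _ hlt

theorem nodeProp_of_Δ [DecidableEq K] {W : WeierstrassCurve.Affine K} (hW : IntegralCoeffs v W)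
    (hΔ : v W.Δ = 1) (σ : K →+* K) : NodeProp v W σ :=
  fun _ _ h _ hx hbad => absurd (goodRed_of_Δ v hW hΔ h.1 hx) hbad

end Fermat.Agent.S58.Node
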