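import Fermat.Agent.S13.Defs2
import Fermat.Agent.S13.R4

/-!
# S58 / Node / CoreB : the node in the normal form `η² + A₁ξη = ξ³ + A₂ξ² + A₆` (pure valuation algebra)

`α, β` = slopes of the two branches, `u = η - αξ`, `w = η - βξ`, `u w = ξ³ + A₆`.
-/

set_option autoImplicit false

namespace Fermat.Agent.S58.Node

open Fermat.Agent.S13 Fermat.Agent.S13.R4

variable {K : Type*} [Field K] {Γ₀ : Type*} [LinearOrderedCommGroupWithZero Γ₀] (v : Valuation K Γ₀)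

/-- the case `P' = -P`.
PROOF.  `(η' - η)(η' + η + A₁ξ) = 0` so `η' = -η - A₁ξ`; `u := η - αξ`, `w := η - βξ`: `η' - αξ = -w`, so `v w = v u =: R`; `R < 1`;
`R ≠ 0` (else `u = w = 0`, `(α-β)ξ = w - u = 0`, `ξ = 0 = η`, `η' = η`).  `v ξ ≤ R` (`(α-β)ξ = w-u`).  `u w = ξ³ + A₆` gives `v A₆ = R²`
(`v ξ³ ≤ R³ < R²`).  With `L` the slope and `d := 2η' + A₁ξ = η' - η ≠ 0`, `d = -(u+w)`:
`(L² + A₁L - A₂ - 2ξ) d² = ξ⁴ - 8A₆ξ - (A₁²+4A₂)A₆` (as `hX3` in `S13.R4core_b`: `linear_combination (..) * heq'`), `A₁²+4A₂ = (α-β)²` is a unit, so the right side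
has valuation `R²`, and `v d² ≤ R²`. -/
theorem core_b {A1 A2 A6 α β ξ η η' : K} (hs : α + β = -A1) (hp : α * β = -A2)
    (hα : v α ≤ 1) (hβ : v β ≤ 1) (hu : v (α - β) = 1)
    (heq : η ^ 2 + A1 * ξ * η = ξ ^ 3 + A2 * ξ ^ 2 + A6)
    (heq' : η' ^ 2 + A1 * ξ * η' = ξ ^ 3 + A2 * ξ ^ 2 + A6)
    (hξ : v ξ < 1) (hη : v η < 1) (hvu : v (η' - α * ξ) = v (η - α * ξ)) (hne : η' ≠ η) :
    1 ≤ v (((3 * ξ ^ 2 + 2 * A2 * ξ - A1 * η') / (2 * η' + A1 * ξ)) ^ 2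
        + A1 * ((3 * ξ ^ 2 + 2 * A2 * ξ - A1 * η') / (2 * η' + A1 * ξ)) - A2 - ξ - ξ) := by
  have hsub : η' - η ≠ 0 := sub_ne_zero.mpr hne
  have hη' : η' = -η - A1 * ξ := by
    have h0 : (η' - η) * (η' + η + A1 * ξ) = 0 := by linear_combination heq' - heq
    have h1 := (mul_eq_zero.mp h0).resolve_left hsub
    linear_combination h1
  obtain ⟨u, hudef⟩ : ∃ u, u = η - α * ξ := ⟨_, rfl⟩
  obtain ⟨w, hwdef⟩ : ∃ w, w = η - β * ξ := ⟨_, rfl⟩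
  have hw' : η' - α * ξ = -w := by rw [hη', hwdef]; linear_combination (-ξ) * hs
  have hvw : v w = v u := by rw [← v.map_neg, ← hw', hvu, hudef]
  have hαβ0 : α - β ≠ 0 := by
    intro h
    rw [h, map_zero] at hu
    exact zero_ne_one hu
  have hdiff : (α - β) * ξ = w - u := by rw [hwdef, hudef]; ring
  have hRlt : v u < 1 := by rw [hudef]; exact sub_lt hη (mul_lt hα hξ)
  have hu0 : u ≠ 0 := by
    intro h0
    have hw0 : w = 0 := by rw [← v.zero_iff, hvw, h0, map_zero]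
    have hξ0 : ξ = 0 := by
      have : (α - β) * ξ = 0 := by rw [hdiff, hw0, h0, sub_zero]
      exact (mul_eq_zero.mp this).resolve_left hαβ0
    have hη0 : η = 0 := by
      have : η = u + α * ξ := by rw [hudef]; ring
      rw [this, h0, hξ0]; ring
    apply hne
    rw [hη', hη0, hξ0]; ring
  have hRpos : 0 < v u := v.pos_iff.mpr hu0
  have hξR : v ξ ≤ v u := by
    have h1 : v ((α - β) * ξ) = v ξ := by rw [map_mul, hu, one_mul]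
    rw [← h1, hdiff]
    exact v.map_sub_le hvw.le le_rfl
  have huw : u * w = ξ ^ 3 + A6 := by
    rw [hudef, hwdef]
    linear_combination heq - ξ * η * hs + ξ ^ 2 * hp
  have hvuw : v (u * w) = v u ^ 2 := by rw [map_mul, hvw, sq]
  have hR3 : v u ^ 3 < v u ^ 2 := by
    have : v u ^ 3 = v u ^ 2 * v u := pow_succ _ 2
    rw [this]
    calc v u ^ 2 * v u < v u ^ 2 * 1 := by
          exact mul_lt_mul_of_pos_left hRlt (pow_pos hRpos 2)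
      _ = v u ^ 2 := mul_one _
  have hξ3 : v (ξ ^ 3) < v u ^ 2 := by
    rw [map_pow]
    exact lt_of_le_of_lt (pow_le_pow_left₀ zero_le hξR 3) hR3
  have hA6 : v A6 = v u ^ 2 := by
    have h1 : A6 = u * w - ξ ^ 3 := by rw [huw]; ring
    rw [h1, v.map_sub_eq_of_lt_left (by rw [hvuw]; exact hξ3), hvuw]
  obtain ⟨d, hddef⟩ : ∃ d, d = 2 * η' + A1 * ξ := ⟨_, rfl⟩
  have hd1 : d = η' - η := by rw [hddef]; linear_combination hη'
  have hd0 : d ≠ 0 := by rw [hd1]; exact hsub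
  have hd2 : d = -(u + w) := by
    rw [hddef, hη', hudef, hwdef]; linear_combination -ξ * hs
  have hvd : v d ≤ v u := by
    rw [hd2, v.map_neg]
    exact v.map_add_le le_rfl hvw.le
  have hD : A1 ^ 2 + 4 * A2 = (α - β) ^ 2 := by
    linear_combination (A1 - (α + β)) * hs + 4 * hp
  have hvD : v (A1 ^ 2 + 4 * A2) = 1 := by rw [hD, map_pow, hu, one_pow]
  rw [← hddef]
  generalize hT : ((3 * ξ ^ 2 + 2 * A2 * ξ - A1 * η') / d) ^ 2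
        + A1 * ((3 * ξ ^ 2 + 2 * A2 * ξ - A1 * η') / d) - A2 - ξ - ξ = T
  have hTd : T * d ^ 2 = ξ ^ 4 - 8 * A6 * ξ - (A1 ^ 2 + 4 * A2) * A6 := by
    rw [← hT]
    have e1 : (((3 * ξ ^ 2 + 2 * A2 * ξ - A1 * η') / d) ^ 2
        + A1 * ((3 * ξ ^ 2 + 2 * A2 * ξ - A1 * η') / d) - A2 - ξ - ξ) * d ^ 2
        = (3 * ξ ^ 2 + 2 * A2 * ξ - A1 * η') ^ 2 + A1 * (3 * ξ ^ 2 + 2 * A2 * ξ - A1 * η') * d
          - (A2 + 2 * ξ) * d ^ 2 := by
      field_simp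
      ring
    rw [e1, hddef]
    linear_combination (-(A1 ^ 2) - 4 * (A2 + 2 * ξ)) * heq'
  have hmain : v ((A1 ^ 2 + 4 * A2) * A6) = v u ^ 2 := by rw [map_mul, hvD, one_mul, hA6]
  have hξ4 : v (ξ ^ 4) < v u ^ 2 := by
    have : ξ ^ 4 = ξ * ξ ^ 3 := by ring
    rw [this, map_mul]
    exact lt_of_le_of_lt (mul_le_of_le_one_left' hξ.le) hξ3
  have h8 : v (8 * A6 * ξ) < v u ^ 2 := by
    have e8 : (8 : K) = 2 * 4 := by norm_num
    have h8le : v (8 : K) ≤ 1 := by rw [e8]; exact mul_le (two_le v) (four_le v)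
    rw [map_mul, map_mul, hA6]
    calc v 8 * v u ^ 2 * v ξ ≤ 1 * v u ^ 2 * v ξ := by gcongr
      _ = v u ^ 2 * v ξ := by rw [one_mul]
      _ < v u ^ 2 * 1 := mul_lt_mul_of_pos_left hξ (pow_pos hRpos 2)
      _ = v u ^ 2 := mul_one _
  have hrhs : v (ξ ^ 4 - 8 * A6 * ξ - (A1 ^ 2 + 4 * A2) * A6) = v u ^ 2 := by
    rw [v.map_sub_eq_of_lt_right (by rw [hmain]; exact v.map_sub_lt hξ4 h8), hmain]
  have hfin : v T * v d ^ 2 = v u ^ 2 := by rw [← map_pow, ← map_mul, hTd, hrhs]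
  by_contra hlt
  push Not at hlt
  have hvd0 : 0 < v d := v.pos_iff.mpr hd0
  have : v T * v d ^ 2 < v u ^ 2 := by
    calc v T * v d ^ 2 < 1 * v d ^ 2 := mul_lt_mul_of_pos_right hlt (pow_pos hvd0 2)
      _ = v d ^ 2 := one_mul _
      _ ≤ v u ^ 2 := pow_le_pow_left₀ zero_le hvd 2
  exact absurd hfin this.ne

/-- a point of the normal form whose `ξ` is a unit has nonsingular reduction.
PROOF (as `S13.NodeAB.goodRed_of_unit`).  `v η ≤ 1` (`R4.integral_of_quadratic`).  If both are `< 1` (they are `≤ 1`):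
`ξ (6ξ + D) = A₁(2η + A₁ξ) - 2(A₁η - (3ξ²+2A₂ξ))`, `ξ² (4ξ + D) = (2η+A₁ξ)² - 4A₆`, `D = A₁²+4A₂`; so `6ξ + D, 4ξ + D ∈ 𝔪`, hence
`D = (4ξ+D) - 2((6ξ+D) - (4ξ+D)) ∈ 𝔪`. -/
theorem core_good {A1 A2 A6 ξ η : K} (h1 : v A1 ≤ 1) (h2 : v A2 ≤ 1) (h6 : v A6 < 1)
    (hD : v (A1 ^ 2 + 4 * A2) = 1) (heq : η ^ 2 + A1 * ξ * η = ξ ^ 3 + A2 * ξ ^ 2 + A6)
    (hξ : v ξ = 1) :
    v (A1 * η - (3 * ξ ^ 2 + 2 * A2 * ξ)) = 1 ∨ v (2 * η + A1 * ξ) = 1 := by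
  have hη : v η ≤ 1 :=
    integral_of_quadratic (mul_le h1 hξ.le)
      (add_le (add_le (pow_le hξ.le 3) (mul_le h2 (pow_le hξ.le 2))) h6.le) heq
  have h3 : v (3 : K) ≤ 1 := by
    have : (3 : K) = 2 + 1 := by norm_num
    rw [this]; exact add_le (two_le v) (by simp)
  have hX1 : v (A1 * η - (3 * ξ ^ 2 + 2 * A2 * ξ)) ≤ 1 :=
    sub_le (mul_le h1 hη) (add_le (mul_le h3 (pow_le hξ.le 2)) (mul_le (mul_le (two_le v) h2) hξ.le))
  have hX2 : v (2 * η + A1 * ξ) ≤ 1 := add_le (mul_le (two_le v) hη) (mul_le h1 hξ.le)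
  by_contra hcon
  rw [not_or] at hcon
  have hX1' := lt_of_le_of_ne hX1 hcon.1
  have hX2' := lt_of_le_of_ne hX2 hcon.2
  have e1 : ξ * (6 * ξ + (A1 ^ 2 + 4 * A2))
      = A1 * (2 * η + A1 * ξ) - 2 * (A1 * η - (3 * ξ ^ 2 + 2 * A2 * ξ)) := by ring
  have e2 : ξ ^ 2 * (4 * ξ + (A1 ^ 2 + 4 * A2)) = (2 * η + A1 * ξ) * (2 * η + A1 * ξ) - 4 * A6 := by
    linear_combination (-4) * heq
  have g1 : v (6 * ξ + (A1 ^ 2 + 4 * A2)) < 1 := by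
    have : v (ξ * (6 * ξ + (A1 ^ 2 + 4 * A2))) < 1 := by
      rw [e1]; exact sub_lt (mul_lt h1 hX2') (mul_lt (two_le v) hX1')
    rwa [map_mul, hξ, one_mul] at this
  have g2 : v (4 * ξ + (A1 ^ 2 + 4 * A2)) < 1 := by
    have : v (ξ ^ 2 * (4 * ξ + (A1 ^ 2 + 4 * A2))) < 1 := by
      rw [e2]; exact sub_lt (mul_lt hX2 hX2') (mul_lt (four_le v) h6)
    rwa [map_mul, map_pow, hξ, one_pow, one_mul] at this
  have e3 : A1 ^ 2 + 4 * A2 = (4 * ξ + (A1 ^ 2 + 4 * A2))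
      - 2 * ((6 * ξ + (A1 ^ 2 + 4 * A2)) - (4 * ξ + (A1 ^ 2 + 4 * A2))) := by ring
  have : v (A1 ^ 2 + 4 * A2) < 1 := by
    rw [e3]; exact sub_lt g2 (mul_lt (two_le v) (sub_lt g1 g2))
  rw [hD] at this
  exact lt_irrefl _ this

end Fermat.Agent.S58.Node
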