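import Fermat.Agent.S13.Defs2
import Fermat.Agent.S13.R4

/-!
# S58 / Node / Crit : the critical point of the Weierstrass polynomial near a singular point of the reduction

`F = y² + a₁xy + a₃y - x³ - a₂x² - a₄x - a₆`, `F_y = 2y + a₁x + a₃`, `F_x = a₁y - (3x² + 2a₂x + a₄)`.
If `c₄` is a unit, every integral `(x,y)` with `F_x, F_y ∈ 𝔪` is congruent to a unique exact critical point `(x₀,y₀)`.
-/

set_option autoImplicit false

namespace Fermat.Agent.S58.Node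

open WeierstrassCurve Fermat.Agent.S13 Fermat.Agent.S13.R4

variable {K : Type*} [Field K] {Γ₀ : Type*} [LinearOrderedCommGroupWithZero Γ₀] (v : Valuation K Γ₀)

/-- at a critical point `(b₂ + 12 x₀)² = c₄`.  (`unfold`/`simp only [WeierstrassCurve.c₄, b₂, b₄]`, `linear_combination`.) -/
theorem crit_sq {W : WeierstrassCurve.Affine K} {x₀ y₀ : K}
    (hy : 2 * y₀ + W.a₁ * x₀ + W.a₃ = 0) (hx : W.a₁ * y₀ = 3 * x₀ ^ 2 + 2 * W.a₂ * x₀ + W.a₄) :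
    (W.a₁ ^ 2 + 4 * (W.a₂ + 3 * x₀)) ^ 2 = W.c₄ := by
  simp only [WeierstrassCurve.c₄, WeierstrassCurve.b₂, WeierstrassCurve.b₄]
  linear_combination 24 * W.a₁ * hy - 48 * hx

theorem Crit_natCast_le (n : ℕ) : v (n : K) ≤ 1 := by
  induction n with
  | zero => simp
  | succ n ih =>
    rw [Nat.cast_succ]
    exact v.map_add_le ih (by simp)

theorem Crit_val_eq_one_of_sq {b : K} (h : v (b ^ 2) = 1) : v b = 1 := by
  rw [map_pow] at h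
  exact (pow_eq_one_iff.mp h).resolve_right two_ne_zero

/-- PROOF.  Put `a₃' := 2y + a₁x + a₃`, `a₄' := -(a₁y - (3x²+2a₂x+a₄))` (both in `𝔪`), `a₂' := a₂ + 3x`, `B := a₁² + 4a₂'`,
`b₄' := 2a₄' + a₁a₃' ∈ 𝔪`.  Identity `c₄ = B² - 24 b₄'`, so `v B = 1`.  Let `T` be a root of `6T² + BT + b₄'`
(`IsAlgClosed.exists_root` or the explicit formula with `IsAlgClosed.exists_pow_nat_eq`: `s² = B² - 24b₄'`, `T = (-B ± s)/12`).  The two roots `T₀,T₁` satisfy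
`6(T₀+T₁) = -B`; for a root `T (6T + B) = -b₄'`, so `1 ≤ v T → v (6T+B) < 1`; if this held for both roots, `B = (6T₀+B)+(6T₁+B) ∈ 𝔪`.
So there is a root with `v T < 1`.  `E := -(a₁T + a₃')/2`; then `2E = -(a₁T+a₃') ∈ 𝔪`, `a₁E = 3T² + 2a₂'T + a₄' ∈ 𝔪`, and
`B E = a₁(a₁E) + 2a₂'(2E) ∈ 𝔪`, so `v E < 1`.  `x₀ := x + T`, `y₀ := y + E`. -/
theorem exists_crit [IsAlgClosed K] [CharZero K] {W : WeierstrassCurve.Affine K}
    (hW : IntegralCoeffs v W) (hc4 : v W.c₄ = 1) {x y : K} (hx : v x ≤ 1) (hy : v y ≤ 1)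
    (hFx : v (W.a₁ * y - (3 * x ^ 2 + 2 * W.a₂ * x + W.a₄)) < 1)
    (hFy : v (2 * y + W.a₁ * x + W.a₃) < 1) :
    ∃ x₀ y₀ : K, v (x - x₀) < 1 ∧ v (y - y₀) < 1 ∧ 2 * y₀ + W.a₁ * x₀ + W.a₃ = 0 ∧
      W.a₁ * y₀ = 3 * x₀ ^ 2 + 2 * W.a₂ * x₀ + W.a₄ := by
  obtain ⟨h1, h2, h3, h4, h6⟩ := hW
  have c2 : v (2 : K) ≤ 1 := by exact_mod_cast Crit_natCast_le v 2
  have c3 : v (3 : K) ≤ 1 := by exact_mod_cast Crit_natCast_le v 3
  have c4 : v (4 : K) ≤ 1 := by exact_mod_cast Crit_natCast_le v 4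
  have c6 : v (6 : K) ≤ 1 := by exact_mod_cast Crit_natCast_le v 6
  have c24 : v (24 : K) ≤ 1 := by exact_mod_cast Crit_natCast_le v 24
  obtain ⟨a3', ha3⟩ : ∃ a, a = 2 * y + W.a₁ * x + W.a₃ := ⟨_, rfl⟩
  obtain ⟨a4', ha4⟩ : ∃ a, a = 3 * x ^ 2 + 2 * W.a₂ * x + W.a₄ - W.a₁ * y := ⟨_, rfl⟩
  obtain ⟨a2', ha2⟩ : ∃ a, a = W.a₂ + 3 * x := ⟨_, rfl⟩
  obtain ⟨B, hB⟩ : ∃ a, a = W.a₁ ^ 2 + 4 * a2' := ⟨_, rfl⟩
  obtain ⟨b4', hb4⟩ : ∃ a, a = 2 * a4' + W.a₁ * a3' := ⟨_, rfl⟩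
  have va3 : v a3' < 1 := by rw [ha3]; exact hFy
  have va4 : v a4' < 1 := by
    have : a4' = -(W.a₁ * y - (3 * x ^ 2 + 2 * W.a₂ * x + W.a₄)) := by rw [ha4]; ring
    rw [this, Valuation.map_neg]; exact hFx
  have va2 : v a2' ≤ 1 := by rw [ha2]; exact add_le h2 (mul_le c3 hx)
  have vb4 : v b4' < 1 := by rw [hb4]; exact add_lt (mul_lt c2 va4) (mul_lt h1 va3)
  have hc : W.c₄ = B ^ 2 - 24 * b4' := by
    simp only [WeierstrassCurve.c₄, WeierstrassCurve.b₂, WeierstrassCurve.b₄]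
    rw [hB, hb4, ha2, ha3, ha4]
    ring
  have vB : v B = 1 := by
    apply Crit_val_eq_one_of_sq v
    have h5 : B ^ 2 = W.c₄ + 24 * b4' := by rw [hc]; ring
    rw [h5, v.map_add_eq_of_lt_left (by rw [hc4]; exact mul_lt c24 vb4), hc4]
  obtain ⟨s, hs⟩ := IsAlgClosed.exists_pow_nat_eq W.c₄ (n := 2) (by norm_num)
  have h12 : (12 : K) ≠ 0 := by norm_num
  -- a root of the quadratic in the maximal ideal
  obtain ⟨T, hT, vT⟩ : ∃ T : K, 6 * T ^ 2 + B * T + b4' = 0 ∧ v T < 1 := by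
    have r0 : 6 * ((s - B) / 12) ^ 2 + B * ((s - B) / 12) + b4' = 0 := by
      field_simp
      linear_combination 6 * hs + 6 * hc
    have r1 : 6 * ((-s - B) / 12) ^ 2 + B * ((-s - B) / 12) + b4' = 0 := by
      field_simp
      linear_combination 6 * hs + 6 * hc
    have key : ∀ T : K, 6 * T ^ 2 + B * T + b4' = 0 → 1 ≤ v T → v (6 * T + B) < 1 := by
      intro T hT h1T
      have h5 : T * (6 * T + B) = -b4' := by linear_combination hT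
      have h6 : v T * v (6 * T + B) < 1 := by
        rw [← map_mul, h5, Valuation.map_neg]; exact vb4
      exact lt_of_le_of_lt (le_mul_of_one_le_left' h1T) h6
    by_contra hcon
    push Not at hcon
    have k0 := key _ r0 (hcon _ r0)
    have k1 := key _ r1 (hcon _ r1)
    have h7 : B = (6 * ((s - B) / 12) + B) + (6 * ((-s - B) / 12) + B) := by
      field_simp
      ring
    have h8 : v B < 1 := by rw [h7]; exact add_lt k0 k1
    rw [vB] at h8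
    exact lt_irrefl _ h8
  have vT' : v T ≤ 1 := vT.le
  obtain ⟨E, hE⟩ : ∃ E : K, E = -(W.a₁ * T + a3') / 2 := ⟨_, rfl⟩
  have e2 : 2 * E = -(W.a₁ * T + a3') := by rw [hE]; field_simp
  have e1 : W.a₁ * E = 3 * T ^ 2 + 2 * a2' * T + a4' := by
    have h2' : (2 : K) ≠ 0 := two_ne_zero
    apply mul_left_cancel₀ h2'
    linear_combination W.a₁ * e2 - hT + T * hB + hb4
  have v2E : v (2 * E) < 1 := by
    rw [e2, Valuation.map_neg]; exact add_lt (mul_lt h1 vT) va3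
  have v1E : v (W.a₁ * E) < 1 := by
    rw [e1]
    exact add_lt (add_lt (mul_lt c3 (by rw [sq]; exact mul_lt vT' vT))
      (mul_lt (mul_le c2 va2) vT)) va4
  have vE : v E < 1 := by
    have h5 : B * E = W.a₁ * (W.a₁ * E) + 2 * a2' * (2 * E) := by rw [hB]; ring
    have h6 : v (B * E) < 1 := by
      rw [h5]; exact add_lt (mul_lt h1 v1E) (mul_lt (mul_le c2 va2) v2E)
    rwa [map_mul, vB, one_mul] at h6
  refine ⟨x + T, y + E, ?_, ?_, ?_, ?_⟩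
  · have : x - (x + T) = -T := by ring
    rw [this, Valuation.map_neg]; exact vT
  · have : y - (y + E) = -E := by ring
    rw [this, Valuation.map_neg]; exact vE
  · linear_combination e2 - ha3
  · linear_combination e1 + 2 * T * ha2 + ha4

/-- PROOF.  `d := x₁ - x₀`: `d * ((a₁² + 4(a₂+3x₀)) + 6 d) = 0` (linear combination of the four equations); the first summand has
valuation `1` (`crit_sq`, `hc4`, `pow_eq_one_iff`), `v (6 d) < 1`; so `d = 0`; then `2 (y₁ - y₀) = 0`. -/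
theorem crit_unique [CharZero K] {W : WeierstrassCurve.Affine K} (hc4 : v W.c₄ = 1)
    {x₀ y₀ x₁ y₁ : K}
    (hy₀ : 2 * y₀ + W.a₁ * x₀ + W.a₃ = 0) (hx₀ : W.a₁ * y₀ = 3 * x₀ ^ 2 + 2 * W.a₂ * x₀ + W.a₄)
    (hy₁ : 2 * y₁ + W.a₁ * x₁ + W.a₃ = 0) (hx₁ : W.a₁ * y₁ = 3 * x₁ ^ 2 + 2 * W.a₂ * x₁ + W.a₄)
    (hd : v (x₁ - x₀) < 1) : x₁ = x₀ ∧ y₁ = y₀ := by
  have c6 : v (6 : K) ≤ 1 := by exact_mod_cast Crit_natCast_le v 6
  have h0 : (x₁ - x₀) * ((W.a₁ ^ 2 + 4 * (W.a₂ + 3 * x₀)) + 6 * (x₁ - x₀)) = 0 := by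
    linear_combination W.a₁ * hy₁ - W.a₁ * hy₀ - 2 * hx₁ + 2 * hx₀
  have vB : v (W.a₁ ^ 2 + 4 * (W.a₂ + 3 * x₀)) = 1 :=
    Crit_val_eq_one_of_sq v (by rw [crit_sq hy₀ hx₀, hc4])
  have h1 : v ((W.a₁ ^ 2 + 4 * (W.a₂ + 3 * x₀)) + 6 * (x₁ - x₀)) = 1 := by
    rw [v.map_add_eq_of_lt_left (by rw [vB]; exact mul_lt c6 hd), vB]
  have h2 : (W.a₁ ^ 2 + 4 * (W.a₂ + 3 * x₀)) + 6 * (x₁ - x₀) ≠ 0 := by
    intro h
    rw [h, map_zero] at h1
    exact zero_ne_one h1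
  have hx : x₁ = x₀ := sub_eq_zero.mp ((mul_eq_zero.mp h0).resolve_right h2)
  refine ⟨hx, ?_⟩
  subst hx
  have h2' : (2 : K) ≠ 0 := two_ne_zero
  apply mul_left_cancel₀ h2'
  linear_combination hy₁ - hy₀

end Fermat.Agent.S58.Node
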