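import Fermat.Agent.S58.Node.Core
import Fermat.Agent.S58.Node.CoreB
import Fermat.Agent.S58.Node.Crit
import Fermat.Agent.S13.R1

/-!
# S58 / Node / Prop : `NodeProp` for a general Weierstrass equation with `c₄` a unit
-/

set_option autoImplicit false

namespace Fermat.Agent.S58.Node

open WeierstrassCurve WeierstrassCurve.Affine Fermat.Agent.S13 Fermat.Agent.S13.R4

variable {K : Type*} [Field K] {Γ₀ : Type*} [LinearOrderedCommGroupWithZero Γ₀] (v : Valuation K Γ₀)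

/-- the equation in the coordinates centred at a critical point. -/
theorem Prop_normal {W : WeierstrassCurve.Affine K} {x₀ y₀ : K}
    (hcy : 2 * y₀ + W.a₁ * x₀ + W.a₃ = 0) (hcx : W.a₁ * y₀ = 3 * x₀ ^ 2 + 2 * W.a₂ * x₀ + W.a₄)
    {X Y : K} (h : W.Equation X Y) :
    (Y - y₀) ^ 2 + W.a₁ * (X - x₀) * (Y - y₀) = (X - x₀) ^ 3 + (W.a₂ + 3 * x₀) * (X - x₀) ^ 2 +
      (x₀ ^ 3 + W.a₂ * x₀ ^ 2 + W.a₄ * x₀ + W.a₆ - y₀ ^ 2 - W.a₁ * x₀ * y₀ - W.a₃ * y₀) := by
  have hE := (W.equation_iff X Y).mp h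
  linear_combination hE - (Y - y₀) * hcy - (X - x₀) * hcx

theorem Prop_val_eq_one_of_sq {z : K} (h : v (z ^ 2) = 1) : v z = 1 := by
  rw [map_pow] at h
  rcases lt_trichotomy (v z) 1 with h1 | h1 | h1
  · exact absurd h (ne_of_lt (pow_lt_one₀ zero_le h1 two_ne_zero))
  · exact h1
  · exact absurd h (ne_of_gt (one_lt_pow₀ h1 two_ne_zero))

theorem Prop_three_le : v (3 : K) ≤ 1 := by
  have : (3 : K) = 2 + 1 := by norm_num
  rw [this]; exact add_le (two_le v) (by simp)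

/-- a point of `W` whose `x`-coordinate is not congruent to that of the (critical point near the) node has nonsingular reduction. -/
theorem Prop_goodRed {W : WeierstrassCurve.Affine K} (hW : IntegralCoeffs v W) (hc4 : v W.c₄ = 1)
    {x₀ y₀ : K} (hx₀ : v x₀ ≤ 1)
    (hcy : 2 * y₀ + W.a₁ * x₀ + W.a₃ = 0) (hcx : W.a₁ * y₀ = 3 * x₀ ^ 2 + 2 * W.a₂ * x₀ + W.a₄)
    (h6 : v (x₀ ^ 3 + W.a₂ * x₀ ^ 2 + W.a₄ * x₀ + W.a₆ - y₀ ^ 2 - W.a₁ * x₀ * y₀ - W.a₃ * y₀) < 1)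
    {X Y : K} (h : W.Equation X Y) (hX : v (X - x₀) = 1) : GoodRed v W X Y := by
  have hD : v (W.a₁ ^ 2 + 4 * (W.a₂ + 3 * x₀)) = 1 :=
    Prop_val_eq_one_of_sq v (by rw [crit_sq hcy hcx]; exact hc4)
  have h2 : v (W.a₂ + 3 * x₀) ≤ 1 := add_le hW.2.1 (mul_le (Prop_three_le v) hx₀)
  have := core_good v hW.1 h2 h6 hD (Prop_normal hcy hcx h) hX
  have e1 : W.a₁ * Y - (3 * X ^ 2 + 2 * W.a₂ * X + W.a₄) =
      W.a₁ * (Y - y₀) - (3 * (X - x₀) ^ 2 + 2 * (W.a₂ + 3 * x₀) * (X - x₀)) := by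
    linear_combination hcx
  have e2 : 2 * Y + W.a₁ * X + W.a₃ = 2 * (Y - y₀) + W.a₁ * (X - x₀) := by
    linear_combination hcy
  rw [GoodRed, e1, e2]
  exact this

theorem nodeProp_of_c4 [IsAlgClosed K] [CharZero K] [DecidableEq K] {W : WeierstrassCurve.Affine K}
    (hW : IntegralCoeffs v W) (hc4 : v W.c₄ = 1) (σ : K →+* K) (hσ : IsInertial v σ)
    (h1 : σ W.a₁ = W.a₁) (h2 : σ W.a₂ = W.a₂) (h3 : σ W.a₃ = W.a₃) (h4 : σ W.a₄ = W.a₄)
    (h6 : σ W.a₆ = W.a₆) : NodeProp v W σ := by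
  intro x y h h' hx hbad
  have hy : v y ≤ 1 := R1.val_y_le_one v hW h.1 hx
  obtain ⟨w1, w2, w3, w4, w6⟩ := id hW
  rw [GoodRed, not_or] at hbad
  obtain ⟨hX, hY⟩ := hbad
  have hXle : v (W.a₁ * y - (3 * x ^ 2 + 2 * W.a₂ * x + W.a₄)) ≤ 1 :=
    sub_le (mul_le w1 hy) (add_le (add_le (mul_le (Prop_three_le v) (pow_le hx 2))
      (mul_le (mul_le (two_le v) w2) hx)) w4)
  have hYle : v (2 * y + W.a₁ * x + W.a₃) ≤ 1 :=
    add_le (add_le (mul_le (two_le v) hy) (mul_le w1 hx)) w3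
  have hXlt := lt_of_le_of_ne hXle hX
  have hYlt := lt_of_le_of_ne hYle hY
  obtain ⟨x₀, y₀, hdx, hdy, hcy, hcx⟩ := exists_crit v hW hc4 hx hy hXlt hYlt
  have hx₀ : v x₀ ≤ 1 := by
    have : x₀ = x - (x - x₀) := by ring
    rw [this]; exact sub_le hx hdx.le
  have hy₀ : v y₀ ≤ 1 := by
    have : y₀ = y - (y - y₀) := by ring
    rw [this]; exact sub_le hy hdy.le
  -- the critical point is fixed by `σ`
  obtain ⟨hσx₀, hσy₀⟩ : σ x₀ = x₀ ∧ σ y₀ = y₀ := by
    refine crit_unique v hc4 hcy hcx ?_ ?_ (hσ.sub_lt x₀ hx₀)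
    · have := congrArg σ hcy
      simpa only [map_add, map_mul, map_ofNat, map_zero, h1, h3] using this
    · have := congrArg σ hcx
      simpa only [map_add, map_mul, map_pow, map_ofNat, h1, h2, h4] using this
  -- normal form
  obtain ⟨A2, hA2⟩ : ∃ A2, A2 = W.a₂ + 3 * x₀ := ⟨_, rfl⟩
  obtain ⟨A6, hA6⟩ : ∃ A6, A6 = x₀ ^ 3 + W.a₂ * x₀ ^ 2 + W.a₄ * x₀ + W.a₆ - y₀ ^ 2 - W.a₁ * x₀ * y₀
      - W.a₃ * y₀ := ⟨_, rfl⟩
  have heq := Prop_normal hcy hcx h.1
  have heq' := Prop_normal hcy hcx h'.1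
  rw [← hA2, ← hA6] at heq heq'
  have hvA2 : v A2 ≤ 1 := by rw [hA2]; exact add_le w2 (mul_le (Prop_three_le v) hx₀)
  have hσA2 : σ A2 = A2 := by
    rw [hA2]; simp only [map_add, map_mul, map_ofNat, h2, hσx₀]
  have hvA6 : v A6 < 1 := by
    have : A6 = (y - y₀) * (y - y₀) + W.a₁ * (x - x₀) * (y - y₀) - (x - x₀) * (x - x₀) ^ 2
        - A2 * ((x - x₀) * (x - x₀)) := by linear_combination (-1 : K) * heq
    rw [this]
    exact sub_lt (sub_lt (add_lt (mul_lt' hdy hdy.le) (mul_lt (mul_le w1 hdx.le) hdy))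
      (mul_lt' hdx (pow_le hdx.le 2))) (mul_lt hvA2 (mul_lt' hdx hdx.le))
  have hD : v (W.a₁ ^ 2 + 4 * A2) = 1 :=
    Prop_val_eq_one_of_sq v (by rw [hA2, crit_sq hcy hcx]; exact hc4)
  -- the two branches
  obtain ⟨s, hs⟩ := IsAlgClosed.exists_pow_nat_eq (W.a₁ ^ 2 + 4 * A2) (n := 2) (by norm_num)
  have h20 : (2 : K) ≠ 0 := two_ne_zero
  obtain ⟨α, hα⟩ : ∃ α, α = (-W.a₁ + s) / 2 := ⟨_, rfl⟩
  obtain ⟨β, hβ⟩ : ∃ β, β = (-W.a₁ - s) / 2 := ⟨_, rfl⟩
  have hsum : α + β = -W.a₁ := by rw [hα, hβ]; field_simp; ring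
  have hprod : α * β = -A2 := by rw [hα, hβ]; field_simp; linear_combination (-1 : K) * hs
  have hdiff : α - β = s := by rw [hα, hβ]; field_simp; ring
  have hvs : v (α - β) = 1 := by
    rw [hdiff]; exact Prop_val_eq_one_of_sq v (by rw [hs]; exact hD)
  have hvα : v α ≤ 1 :=
    integral_of_quadratic (b := W.a₁) (c := A2) w1 hvA2 (by linear_combination α * hsum - hprod)
  have hvβ : v β ≤ 1 :=
    integral_of_quadratic (b := W.a₁) (c := A2) w1 hvA2 (by linear_combination β * hsum - hprod)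
  have hσα : σ α = α := by
    have e : (σ α - α) * (σ α - β) = 0 := by
      have e1 : α ^ 2 + W.a₁ * α = A2 := by linear_combination α * hsum - hprod
      have e2 := congrArg σ e1
      simp only [map_add, map_mul, map_pow, h1, hσA2] at e2
      linear_combination e2 - (σ α) * hsum + hprod
    rcases mul_eq_zero.mp e with e | e
    · exact sub_eq_zero.mp e
    · exfalso
      have h5 := hσ.sub_lt α hvα
      rw [sub_eq_zero.mp e, ← Valuation.map_neg, neg_sub, hvs] at h5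
      exact lt_irrefl _ h5
  have hσβ : σ β = β := by
    have e : β = -W.a₁ - α := by linear_combination hsum
    rw [e]; simp [h1, hσα]
  have hvξ : v (σ x - x₀) = v (x - x₀) := by
    rw [← hσ.map_val (x - x₀)]; simp [hσx₀]
  have hvu : v ((σ y - y₀) - α * (σ x - x₀)) = v ((y - y₀) - α * (x - x₀)) := by
    rw [← hσ.map_val ((y - y₀) - α * (x - x₀))]; simp [hσx₀, hσy₀, hσα]
  have hvw : v ((σ y - y₀) - β * (σ x - x₀)) = v ((y - y₀) - β * (x - x₀)) := by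
    rw [← hσ.map_val ((y - y₀) - β * (x - x₀))]; simp [hσx₀, hσy₀, hσβ]
  rw [sub_eq_add_neg, Point.neg_some]
  by_cases hxy : σ x = x ∧ σ y = W.negY x (W.negY x y)
  · left
    exact Point.add_of_Y_eq hxy.1 hxy.2
  right
  rw [Point.add_some hxy]
  refine ⟨_, _, _, rfl, ?_⟩
  have key : 1 ≤ v (W.addX (σ x) x (W.slope (σ x) x (σ y) (W.negY x y)) - x₀) := by
    rw [addX]
    by_cases hXX : σ x = x
    · have hyne : σ y ≠ y := by
        intro e
        exact hxy ⟨hXX, by rw [negY_negY]; exact e⟩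
      have hne : σ y ≠ W.negY x (W.negY x y) := by rw [negY_negY]; exact hyne
      rw [slope_of_Y_ne hXX hne, negY]
      rw [hXX] at heq' hvu
      have := core_b v hsum hprod hvα hvβ hvs heq heq' hdx hdy hvu
        (fun e => hyne (sub_left_injective e))
      rw [hXX]
      convert this using 2
      have e1 : 3 * x ^ 2 + 2 * W.a₂ * x + W.a₄ - W.a₁ * σ y =
          3 * (x - x₀) ^ 2 + 2 * A2 * (x - x₀) - W.a₁ * (σ y - y₀) := by
        rw [hA2]; linear_combination (-1 : K) * hcx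
      have e2 : σ y - (-σ y - W.a₁ * x - W.a₃) = 2 * (σ y - y₀) + W.a₁ * (x - x₀) := by
        linear_combination hcy
      rw [e1, e2, hA2]
      ring
    · rw [slope_of_X_ne hXX, negY]
      have := core_a v hsum hprod hvα hvβ hvs heq heq' hdx hdy hvξ hvu hvw
        (fun e => hXX (sub_left_injective e))
      convert this using 2
      have e1 : σ y - (-y - W.a₁ * x - W.a₃) = (σ y - y₀) + (y - y₀) + W.a₁ * (x - x₀) := by
        linear_combination hcy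
      have e2 : σ x - x = (σ x - x₀) - (x - x₀) := by ring
      rw [e1, e2, hA2]
      ring
  rcases lt_or_eq_of_le key with hlt | heq1
  · left
    have e : W.addX (σ x) x (W.slope (σ x) x (σ y) (W.negY x y)) =
        (W.addX (σ x) x (W.slope (σ x) x (σ y) (W.negY x y)) - x₀) + x₀ := by ring
    rw [e, v.map_add_eq_of_lt_left (lt_of_le_of_lt hx₀ hlt)]
    exact hlt
  · right
    exact Prop_goodRed v hW hc4 hx₀ hcy hcx (hA6 ▸ hvA6)
      (nonsingular_add h' ((nonsingular_neg x y).mpr h) hxy).1 heq1.symm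

end Fermat.Agent.S58.Node
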