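import Fermat.Agent.S58.Contracts
import Fermat.Agent.S58.Node.Prop
import Fermat.Agent.S58.Node.Good
import Fermat.Agent.S13.LPgen
import Fermat.Agent.S13.Inertia
import Fermat.Agent.S13.ModP
import Fermat.Agent.S13.NP
import Fermat.Agent.S13.Ladder
import Fermat.Agent.S13.LadderDeg

/-!
# S58 / Node / Main : inertia at a prime of good or multiplicative reduction is unipotent on the odd prime-to-`q` torsion
-/

set_option autoImplicit false

namespace Fermat.Agent.S58.Node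

open WeierstrassCurve WeierstrassCurve.Affine WeierstrassCurve.Affine.Point Polynomial
open Fermat.Agent.S13

local notation "Qb" => AlgebraicClosure ℚ
local notation "GQ" => (AlgebraicClosure ℚ ≃ₐ[ℚ] AlgebraicClosure ℚ)

/-- the curve over `ℚ̄` is the base change of the integral model. (pattern: `S13.EK_eq`) -/
theorem EQb_eq (W : WeierstrassCurve ℤ) : ((EQ W)⁄Qb) = W.map (Int.castRingHom Qb) := by
  show (W.map (Int.castRingHom ℚ)).map (algebraMap ℚ Qb) = _
  rw [WeierstrassCurve.map_map]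
  congr 1

section val

variable {Γ₀ : Type*} [LinearOrderedCommGroupWithZero Γ₀] (v : Valuation Qb Γ₀)

/-- (pattern: `S13.EK_integralCoeffs`, `np_val_intCast_le_one`) -/
theorem integralCoeffs (W : WeierstrassCurve ℤ) :
    IntegralCoeffs v (((EQ W)⁄Qb) : WeierstrassCurve.Affine Qb) := by
  rw [EQb_eq]
  refine ⟨?_, ?_, ?_, ?_, ?_⟩ <;> exact np_val_intCast_le_one v _

/-- the node property: `q ∤ Δ`: `nodeProp_of_Δ`;  `q ∣ Δ`, `q ∤ c₄`: `nodeProp_of_c4` (`map_Δ`, `map_c₄`, `np_val_intCast_eq_one`;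
the coefficients are integers, hence fixed by `σ`: `map_intCast`). -/
theorem nodeProp (W : WeierstrassCurve ℤ) (q : ℕ) (hq : q.Prime) (hvq : v (q : Qb) < 1)
    (hss : (q : ℤ) ∣ W.Δ → ¬ (q : ℤ) ∣ W.c₄) (σ : GQ) (hσ : IsInertial v (σ : Qb →+* Qb)) :
    NodeProp v (((EQ W)⁄Qb) : WeierstrassCurve.Affine Qb) (σ : Qb →+* Qb) := by
  have hσint : ∀ n : ℤ, (σ : Qb →+* Qb) (n : Qb) = n := fun n => map_intCast _ n
  by_cases hΔ : (q : ℤ) ∣ W.Δ
  · refine nodeProp_of_c4 v (integralCoeffs v W) ?_ _ hσ ?_ ?_ ?_ ?_ ?_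
    · rw [EQb_eq]
      show v (W.map (Int.castRingHom Qb)).c₄ = 1
      rw [WeierstrassCurve.map_c₄]
      exact np_val_intCast_eq_one v q hq hvq _ (hss hΔ)
    all_goals
      rw [EQb_eq]
      exact hσint _
  · refine nodeProp_of_Δ v (integralCoeffs v W) ?_ _
    rw [EQb_eq]
    show v (W.map (Int.castRingHom Qb)).Δ = 1
    rw [WeierstrassCurve.map_Δ]
    exact np_val_intCast_eq_one v q hq hvq _ hΔ

/-- (pattern: `S13.frey_LP`) -/
theorem inE1_sq (W : WeierstrassCurve ℤ) (q : ℕ) (hq : q.Prime) (hvq : v (q : Qb) < 1)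
    (hss : (q : ℤ) ∣ W.Δ → ¬ (q : ℤ) ∣ W.c₄) (σ : GQ) (hσ : IsInertial v (σ : Qb →+* Qb))
    (Q : ((EQ W)⁄Qb).Point) : InE1 v (σ • (σ • Q - Q) - (σ • Q - Q)) := by
  have := LPgen v (integralCoeffs v W) (σ : Qb →+* Qb) hσ
    (DistribSMul.toAddMonoidHom ((EQ W)⁄Qb).Point σ) ?_ (nodeProp v W q hq hvq hss σ hσ) Q
  · exact this
  · intro x y h
    refine ⟨?_, ?_⟩
    · exact (baseChange_nonsingular (W := EQ W) (f := σ.toAlgHom) σ.injective x y).2 h
    · rfl

/-- the kernel of reduction has no odd torsion prime to the residue characteristic (pattern: `S13.FV_eq_bot`, `S13.torsion_iff_root`: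
`n = 2m+1`; `m = 0` trivial; `smul_eq_zero_iff`, `hpoly_map`, `hpoly_natDegree_le`, `hpoly_coeff`, `root_integral`). -/
theorem eq_zero_of_inE1 (W : WeierstrassCurve ℤ) (n : ℕ) (hn : Odd n) (hvn : v (n : Qb) = 1)
    (Q : ((EQ W)⁄Qb).Point) (hQ : InE1 v Q) (hnQ : (n : ℤ) • Q = 0) : Q = 0 := by
  obtain ⟨m, rfl⟩ := hn
  rw [natCast_zsmul] at hnQ
  rcases Nat.eq_zero_or_pos m with rfl | hm
  · simpa using hnQ
  rcases Q with _ | ⟨x, y, h⟩
  · rfl
  · exfalso
    have h1 : 1 < v x := hQ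
    have h2 := (smul_eq_zero_iff ((EQ W)⁄Qb) h m hm).1 hnQ
    rw [EQb_eq, hpoly_map] at h2
    have h3 := root_integral v (hpoly W m) (2 * m ^ 2 + 2 * m) (hpoly_natDegree_le _ _ hm)
      (by rw [hpoly_coeff _ _ hm]; push_cast; rw [Valuation.map_neg]; exact_mod_cast hvn) x h2
    exact absurd h1 (not_lt.2 h3)

end val

/-- **[NODE]** (`v := A.valuation`, `isInertial_of_mem_inertia`, `hvq` from `LiesOverPrime` = `(q : Qb) ∈ A.nonunits`
(`ValuationSubring.valuation_lt_one_iff`/`mem_nonunits_iff`), `hvn` by `np_val_intCast_eq_one`;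
`R := σ • (σ • P - P) - (σ • P - P)` is killed by `n` (`smul_sub`, `smul_comm`/`map_zsmul` for the additive map `σ • ·`), so `R = 0`; `abel`.) -/
theorem inertiaTors (W : WeierstrassCurve ℤ) : InertiaTors W := by
  intro q n hq hss hn hqn A hA σ hσ P hP
  have hσ' := isInertial_of_mem_inertia A σ hσ
  have hvq : A.valuation (q : Qb) < 1 := (ValuationSubring.mem_nonunits_iff A).1 hA
  have hvn : A.valuation (n : Qb) = 1 := by
    have := np_val_intCast_eq_one A.valuation q hq hvq (n : ℤ) (by exact_mod_cast hqn)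
    exact_mod_cast this
  have hσn : ∀ R : ((EQ W)⁄Qb).Point, (n : ℤ) • (σ • R) = σ • ((n : ℤ) • R) := fun R =>
    ((DistribSMul.toAddMonoidHom ((EQ W)⁄Qb).Point σ).map_zsmul (n : ℤ) R).symm
  have hσ0 : σ • (0 : ((EQ W)⁄Qb).Point) = 0 :=
    (DistribSMul.toAddMonoidHom ((EQ W)⁄Qb).Point σ).map_zero
  have hR : (n : ℤ) • (σ • (σ • P - P) - (σ • P - P)) = 0 := by
    have h1 : (n : ℤ) • (σ • P - P) = 0 := by
      rw [zsmul_sub, hσn, hP, hσ0, sub_zero]
    rw [zsmul_sub, hσn, h1, hσ0, sub_zero]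
  have h0 := eq_zero_of_inE1 A.valuation W n hn hvn _
    (inE1_sq A.valuation W q hq hvq hss σ hσ' P) hR
  rw [smul_sub] at h0
  rw [← h0]
  abel

end Fermat.Agent.S58.Node
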