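import Fermat.Agent.S13.Defs2
import Fermat.Agent.S13.R4

/-!
# S58 / Node / Core : the node in the normal form `η² + A₁ξη = ξ³ + A₂ξ² + A₆` (pure valuation algebra)

`α, β` = slopes of the two branches, `u = η - αξ`, `w = η - βξ`, `u w = ξ³ + A₆`.
-/

set_option autoImplicit false

namespace Fermat.Agent.S58.Node

open Fermat.Agent.S13 Fermat.Agent.S13.R4

variable {K : Type*} [Field K] {Γ₀ : Type*} [LinearOrderedCommGroupWithZero Γ₀] (v : Valuation K Γ₀)

/-- the valuation-theoretic heart: `a w' - b w = δ = b u' - a u` with `δ` small forces `v a = v b`. -/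
theorem Core_val_eq {a b u w u' w' δ : K} (h1 : a * w' - b * w = δ) (h2 : b * u' - a * u = δ)
    (hu : v u' = v u) (hw : v w' = v w)
    (hδ : v δ < max (v a) (v b) * max (v u) (v w)) : v a = v b := by
  by_contra hne
  rcases lt_or_gt_of_ne hne with hab | hab
  · -- `v a < v b`
    rw [max_eq_right hab.le] at hδ
    have hb0 : 0 < v b := lt_of_le_of_lt zero_le hab
    rcases le_total (v u) (v w) with huw | huw
    · rw [max_eq_right huw] at hδ
      have hw0 : 0 < v w := by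
        rcases eq_or_lt_of_le (zero_le : (0 : Γ₀) ≤ v w) with h | h
        · rw [← h, mul_zero] at hδ
          exact absurd hδ (not_lt.2 zero_le)
        · exact h
      have h3 : v (a * w') < v (b * w) := by
        rw [map_mul, map_mul, hw]
        exact mul_lt_mul_of_pos_right hab hw0
      have h4 := v.map_sub_eq_of_lt_right h3
      rw [h1, map_mul] at h4
      rw [h4] at hδ
      exact lt_irrefl _ hδ
    · rw [max_eq_left huw] at hδ
      have hu0 : 0 < v u := by
        rcases eq_or_lt_of_le (zero_le : (0 : Γ₀) ≤ v u) with h | h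
        · rw [← h, mul_zero] at hδ
          exact absurd hδ (not_lt.2 zero_le)
        · exact h
      have h3 : v (a * u) < v (b * u') := by
        rw [map_mul, map_mul, hu]
        exact mul_lt_mul_of_pos_right hab hu0
      have h4 := v.map_sub_eq_of_lt_left h3
      rw [h2, map_mul, hu] at h4
      rw [h4] at hδ
      exact lt_irrefl _ hδ
  · -- `v b < v a`
    rw [max_eq_left hab.le] at hδ
    rcases le_total (v u) (v w) with huw | huw
    · rw [max_eq_right huw] at hδ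
      have hw0 : 0 < v w := by
        rcases eq_or_lt_of_le (zero_le : (0 : Γ₀) ≤ v w) with h | h
        · rw [← h, mul_zero] at hδ
          exact absurd hδ (not_lt.2 zero_le)
        · exact h
      have h3 : v (b * w) < v (a * w') := by
        rw [map_mul, map_mul, hw]
        exact mul_lt_mul_of_pos_right hab hw0
      have h4 := v.map_sub_eq_of_lt_left h3
      rw [h1, map_mul, hw] at h4
      rw [h4] at hδ
      exact lt_irrefl _ hδ
    · rw [max_eq_left huw] at hδ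
      have hu0 : 0 < v u := by
        rcases eq_or_lt_of_le (zero_le : (0 : Γ₀) ≤ v u) with h | h
        · rw [← h, mul_zero] at hδ
          exact absurd hδ (not_lt.2 zero_le)
        · exact h
      have h3 : v (b * u') < v (a * u) := by
        rw [map_mul, map_mul, hu]
        exact mul_lt_mul_of_pos_right hab hu0
      have h4 := v.map_sub_eq_of_lt_right h3
      rw [h2, map_mul] at h4
      rw [h4] at hδ
      exact lt_irrefl _ hδ

/-- two points near the node with the same `v u`, `v w`, `v ξ` and different `ξ`: the `ξ`-coordinate of the difference is not in `𝔪`. -/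
theorem core_a {A1 A2 A6 α β ξ η ξ' η' : K} (hs : α + β = -A1) (hp : α * β = -A2)
    (hα : v α ≤ 1) (hβ : v β ≤ 1) (hu : v (α - β) = 1)
    (heq : η ^ 2 + A1 * ξ * η = ξ ^ 3 + A2 * ξ ^ 2 + A6)
    (heq' : η' ^ 2 + A1 * ξ' * η' = ξ' ^ 3 + A2 * ξ' ^ 2 + A6)
    (hξ : v ξ < 1) (hη : v η < 1) (hvξ : v ξ' = v ξ)
    (hvu : v (η' - α * ξ') = v (η - α * ξ)) (hvw : v (η' - β * ξ') = v (η - β * ξ))
    (hne : ξ' ≠ ξ) :
    1 ≤ v (((η' + η + A1 * ξ) / (ξ' - ξ)) ^ 2 + A1 * ((η' + η + A1 * ξ) / (ξ' - ξ)) - A2 - ξ' - ξ) := by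
  have hA1 : A1 = -(α + β) := by rw [hs, neg_neg]
  have hA2 : A2 = -(α * β) := by rw [hp, neg_neg]
  subst hA1 hA2
  obtain ⟨u, hu_def⟩ : ∃ u, u = η - α * ξ := ⟨_, rfl⟩
  obtain ⟨w, hw_def⟩ : ∃ w, w = η - β * ξ := ⟨_, rfl⟩
  obtain ⟨u', hu'_def⟩ : ∃ u', u' = η' - α * ξ' := ⟨_, rfl⟩
  obtain ⟨w', hw'_def⟩ : ∃ w', w' = η' - β * ξ' := ⟨_, rfl⟩
  rw [← hu_def, ← hu'_def] at hvu
  rw [← hw_def, ← hw'_def] at hvw
  have huw : u * w = ξ ^ 3 + A6 := by rw [hu_def, hw_def]; linear_combination heq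
  have huw' : u' * w' = ξ' ^ 3 + A6 := by rw [hu'_def, hw'_def]; linear_combination heq'
  obtain ⟨a, ha⟩ : ∃ a, a = u' + w := ⟨_, rfl⟩
  obtain ⟨b, hb⟩ : ∃ b, b = w' + u := ⟨_, rfl⟩
  have hd : ξ' - ξ ≠ 0 := sub_ne_zero.mpr hne
  have hba : b - a = (α - β) * (ξ' - ξ) := by
    rw [ha, hb, hu_def, hw_def, hu'_def, hw'_def]; ring
  have hvba : v (b - a) = v (ξ' - ξ) := by rw [hba, map_mul, hu, one_mul]
  have hvd0 : 0 < v (ξ' - ξ) := v.pos_iff.mpr hd
  -- `R`
  have hξ0 : ξ ≠ 0 := by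
    rintro rfl
    rw [map_zero] at hvξ
    exact hne ((map_eq_zero v).1 hvξ)
  have hvξ0 : 0 < v ξ := v.pos_iff.mpr hξ0
  have hξR : v ξ ≤ max (v u) (v w) := by
    have : (α - β) * ξ = w - u := by rw [hu_def, hw_def]; ring
    have h1 := congrArg v this
    rw [map_mul, hu, one_mul] at h1
    rw [h1, max_comm]
    exact v.map_sub w u
  have hR0 : 0 < max (v u) (v w) := lt_of_lt_of_le hvξ0 hξR
  have hR1 : max (v u) (v w) < 1 := by
    refine max_lt ?_ ?_
    · rw [hu_def]; exact sub_lt hη (mul_lt hα hξ)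
    · rw [hw_def]; exact sub_lt hη (mul_lt hβ hξ)
  have hM : v (b - a) ≤ max (v a) (v b) := by
    rw [max_comm]; exact v.map_sub b a
  have hM0 : 0 < max (v a) (v b) := lt_of_lt_of_le (hvba ▸ hvd0) hM
  -- `δ`
  have h1 : a * w' - b * w = ξ' ^ 3 - ξ ^ 3 := by
    rw [ha, hb]; linear_combination huw' - huw
  have h2 : b * u' - a * u = ξ' ^ 3 - ξ ^ 3 := by
    rw [ha, hb]; linear_combination huw' - huw
  have hδ : v (ξ' ^ 3 - ξ ^ 3) < max (v a) (v b) * max (v u) (v w) := by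
    have e : ξ' ^ 3 - ξ ^ 3 = (ξ' - ξ) * (ξ' * ξ' + ξ' * ξ + ξ * ξ) := by ring
    have hq : v (ξ' * ξ' + ξ' * ξ + ξ * ξ) ≤ max (v u) (v w) * max (v u) (v w) := by
      refine v.map_add_le (v.map_add_le ?_ ?_) ?_
      · rw [map_mul, hvξ]; exact mul_le_mul' hξR hξR
      · rw [map_mul, hvξ]; exact mul_le_mul' hξR hξR
      · rw [map_mul]; exact mul_le_mul' hξR hξR
    have hq' : v (ξ' * ξ' + ξ' * ξ + ξ * ξ) < max (v u) (v w) := by
      refine lt_of_le_of_lt hq ?_
      calc max (v u) (v w) * max (v u) (v w) < 1 * max (v u) (v w) :=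
            mul_lt_mul_of_pos_right hR1 hR0
        _ = max (v u) (v w) := one_mul _
    rw [e, map_mul, ← hvba]
    calc v (b - a) * v (ξ' * ξ' + ξ' * ξ + ξ * ξ)
        ≤ max (v a) (v b) * v (ξ' * ξ' + ξ' * ξ + ξ * ξ) := mul_le_mul_left hM _
      _ < max (v a) (v b) * max (v u) (v w) := mul_lt_mul_of_pos_left hq' hM0
  have hab : v a = v b := Core_val_eq v h1 h2 hvu hvw hδ
  -- conclusion
  generalize hL : (η' + η + -(α + β) * ξ) / (ξ' - ξ) = L
  have hLd : L * (ξ' - ξ) = η' + η + -(α + β) * ξ := by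
    rw [← hL]; exact div_mul_cancel₀ _ hd
  have hLa : (L - α) * (ξ' - ξ) = a := by
    rw [sub_mul, hLd, ha, hu'_def, hw_def]; ring
  have hLb : (L - β) * (ξ' - ξ) = b := by
    rw [sub_mul, hLd, hb, hw'_def, hu_def]; ring
  have hprod : (L ^ 2 + -(α + β) * L - -(α * β)) * ((ξ' - ξ) * (ξ' - ξ)) = a * b := by
    rw [← hLa, ← hLb]; ring
  have hf : 1 ≤ v (L ^ 2 + -(α + β) * L - -(α * β)) := by
    by_contra hcon
    push Not at hcon
    have h3 := congrArg v hprod
    rw [map_mul, map_mul, map_mul, ← hab] at h3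
    have hle : v (ξ' - ξ) ≤ v a := by
      rw [← hvba]
      refine hM.trans ?_
      rw [← hab, max_self]
    have h4 : v (L ^ 2 + -(α + β) * L - -(α * β)) * (v (ξ' - ξ) * v (ξ' - ξ)) < v a * v a := by
      calc v (L ^ 2 + -(α + β) * L - -(α * β)) * (v (ξ' - ξ) * v (ξ' - ξ))
          < 1 * (v (ξ' - ξ) * v (ξ' - ξ)) :=
            mul_lt_mul_of_pos_right hcon (mul_pos hvd0 hvd0)
        _ = v (ξ' - ξ) * v (ξ' - ξ) := one_mul _
        _ ≤ v a * v a := mul_le_mul' hle hle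
    rw [h3] at h4
    exact lt_irrefl _ h4
  have h5 : v (ξ' + ξ) < 1 := add_lt (hvξ ▸ hξ) hξ
  have h6 : L ^ 2 + -(α + β) * L - -(α * β) - ξ' - ξ =
      (L ^ 2 + -(α + β) * L - -(α * β)) - (ξ' + ξ) := by ring
  rw [h6, v.map_sub_eq_of_lt_left (lt_of_lt_of_le h5 hf)]
  exact hf

end Fermat.Agent.S58.Node
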